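import Fermat.Agent.CAR.NRM.Export
import Fermat.Agent.CAR.BK.Vert
import Fermat.Agent.CAR.NS.Asm3
import Fermat.Agent.CAR.NS.FGabs
import Fermat.Agent.CAR.FG.HG
import Fermat.Agent.CAR.ON.Global

/-!
# CAR / Main / Abs : [TOP-ABS] the abstract top of Theorem C, in the language of [BK] + [NS]

`top_abs` :  `h ∈ E^×` (`E = F_K`), `n ∣ div h`, `P1 h, P2 h ∈ K^× (E^×)^n`   ⇒   `h^((q²-1)²) ∈ ℚ̄^× (F^×)^n`.

Chain:  `NRM.exists_chart_data` (`w = h^(q²-1) a z^n ≡ 1`, `ψ`, `e`, `GLUE`)  →  `NS.chart_main` on the chart `t` (`w' = w^(q²-1) ψ^n ≡ 1`, section `G ≡ 1`)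
→  shift (`s^m G`, `s = 1/t`)  →  `NS.chart_inf` on the chart `1/t`  →  `ON.pow_of_sections`.
EVERY missing input is an explicit hypothesis (see the list of arguments of `top_abs`).
-/

set_option autoImplicit false

open Polynomial ModularCurve AlgebraicCurve

noncomputable section

namespace Fermat.Agent.CAR.Main

open Fermat.Agent.GAL.KL Fermat.Agent.GAL.KLC Fermat.Agent.TOR.T1 Fermat.Agent.CAR.ON
open Fermat.Agent.GAL Fermat.Agent.CAR Fermat.Agent.CAR.BK Fermat.Agent.CAR.NRM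
open Fermat.Agent.S24.FF

variable {K F₀ F k Γ' Γ₀ I : Type*} [Field K] [Field F₀] [Field F] [Algebra K F₀]
  [Algebra K F] [Field k] [LinearOrderedCommGroupWithZero Γ'] [LinearOrderedCommGroupWithZero Γ₀]
  {v₀ : Valuation F₀ Γ'} {ρ₀ : v₀.integer →+* LaurentSeries k}
  {v : Idx I → Valuation F Γ₀} {ρ : ∀ i, (v i).integer →+* LaurentSeries k}
  {α β γ : F₀ →ₐ[K] F} {q : ℕ} [NeZero q] {E₀ : Subfield F₀} {E : Subfield F}
  {u₀ : F₀} {u : F} {η : LaurentSeries k}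

/-- on `E`, `v (md i) z < 1` does not depend on `i`. -/
theorem md_lt_one (H : Lvl2 K ρ₀ v ρ α β γ q) (C : ChartK K ρ₀ ρ α γ E₀ E q u₀ u η) {z : F}
    (hz : z ∈ E) (i j : I) (h : v (md i) z < 1) : v (md j) z < 1 := by
  rw [← rd_zero_iff (H.red _)] at h ⊢
  exact C.mdc z hz i j 0 h

/-- from the three valuations `v3` to the whole family. -/
theorem lt_one_of_v3 (H : Lvl2 K ρ₀ v ρ α β γ q) (C : ChartK K ρ₀ ρ α γ E₀ E q u₀ u η) (i₀ : I)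
    {z : E} (h : ∀ l, v3 E v i₀ l z < 1) (i : Idx I) : v i (z : F) < 1 := by
  rcases i with _ | _ | i
  · exact h oo
  · exact h zr
  · exact md_lt_one H C z.2 i₀ i (h (md ()))

/-- **the shift** (hypothesis `hs` of `NS.chart_inf`): a section `G ≡ 1` on the chart `t` gives the section `s^m G ≡ s^m` on the chart `1/t`. -/
theorem exists_shift {t : F} (ht : t ≠ 0) (i₀ : I) {n : ℕ} (hn : 0 < n) {w : E}
    (s : Bu K E v t⁻¹) (hs : ((s : E) : F) = t⁻¹)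
    (hG : ∃ G ∈ NS.Lam (Bu K E v t) n w, ∀ i, v3 E v i₀ i (G - 1) < 1) :
    ∃ m : ℕ, ∃ G ∈ NS.Lam (Bu K E v t⁻¹) n w, ∀ i, v3 E v i₀ i (G - (s : E) ^ m) < 1 := by
  obtain ⟨G, hG, hG1⟩ := hG
  have hGB : G ^ n * w ∈ Bu K E v t := hG
  have h1 : (G : F) ∈ II K (t⁻¹)⁻¹ n (w : F) := by
    rw [inv_inv]
    exact lam_subset_II hG
  obtain ⟨m₀, hm₀⟩ := II.shift (inv_ne_zero ht) hn h1
  refine ⟨m₀, (s : E) ^ m₀ * G, ?_, fun i => ?_⟩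
  · show ((s : E) ^ m₀ * G) ^ n * w ∈ Bu K E v t⁻¹
    refine ⟨?_, fun i => ?_⟩
    · have h2 : IsInt K t⁻¹ ((t⁻¹ ^ m₀ * (G : F)) ^ n * (w : F)) := hm₀ m₀ le_rfl
      simpa [hs] using h2
    · have e1 : ((((s : E) ^ m₀ * G) ^ n * w : E) : F) =
          (((s : E) : F) ^ m₀) ^ n * ((G ^ n * w : E) : F) := by
        push_cast
        ring
      rw [e1, map_mul, map_pow, map_pow]
      exact mul_le_one' (pow_le_one' (pow_le_one' (s.2.2 i) _) _) (hGB.2 i)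
  · have e1 : (s : E) ^ m₀ * G - (s : E) ^ m₀ = (s : E) ^ m₀ * (G - 1) := by ring
    rw [e1, map_mul, map_pow]
    exact lt_of_le_of_lt (mul_le_of_le_one_left' (pow_le_one' (s.2.2 _) _)) (hG1 i)

/-- **[TOP-ABS]**, with the hypothesis (HG) in the verbatim shape of `NS.chart_main` / `NS.chart_inf` (`BK.hgF`, `BK.hgF_inv`). -/
theorem top_abs' [Fintype I] [IsAlgClosed K] [CharZero K] [IsFF1 K F] [IsAlgClosed k]
    {x x' : F₀} {ξ ξ' : LaurentSeries k} {m : ℕ} {δ : F} {ψ₀ : LaurentSeries k} {cc : I → k}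
    -- the level structure  [FQ2C]
    (H : Lvl2 K ρ₀ v ρ α β γ q) (X : XDat K ρ₀ x x' ξ ξ' m q) (hq : q.Prime)
    (hA : ∀ i, Arch (v i)) (Dl : Del v ρ δ ψ₀ cc) (hI : q - 1 ≤ Fintype.card I)
    (hα : finrankAlong K α = q * (q + 1)) (hγ : finrankAlong K γ = q * (q + 1))
    -- the two charts  [BK-C]
    (Ct : ChartK K ρ₀ ρ α γ E₀ E q x (tt α γ x) ξ)
    (Ci : ChartK K ρ₀ ρ α γ E₀ E q x⁻¹ (tt α γ x)⁻¹ ξ⁻¹)
    (hDt : IsDedekindDomain (RP.RR (CTV.Fbar H.red₀) ξ))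
    (hDi : IsDedekindDomain (RP.RR (CTV.Fbar H.red₀) ξ⁻¹))
    (i₀ : I)
    (πt : Bu K E v (tt α γ x)) (hπt : ((πt : E) : F) = algebraMap K F (q : K))
    (πi : Bu K E v (tt α γ x)⁻¹) (hπi : ((πi : E) : F) = algebraMap K F (q : K))
    (s : Bu K E v (tt α γ x)⁻¹) (hs : ((s : E) : F) = (tt α γ x)⁻¹)
    -- [NRM]
    {vL : Valuation K Γ₀} {KK : Subfield K} {P1 P2 : F →* F}
    (A : (datOf v ρ i₀ vL KK E P1 P2).All q)
    (hP1 : ∀ z, IsInt K (tt α γ x) z → IsInt K (tt α γ x) (P1 z))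
    (hP2 : ∀ z, IsInt K (tt α γ x) z → IsInt K (tt α γ x) (P2 z))
    -- discreteness  [D3]
    {νt : Bu K E v (tt α γ x)} {νi : Bu K E v (tt α γ x)⁻¹} {e : ℕ}
    (Dt : NS.Disc3 (Bu K E v (tt α γ x)) (v3 E v i₀) oo (md ()) zr πt νt e)
    (Di : NS.Disc3 (Bu K E v (tt α γ x)⁻¹) (v3 E v i₀) oo (md ()) zr πi νi e)
    -- incidence  [INC], [INF]
    (INC : ∀ P : Ideal (Bu K E v (tt α γ x)), P.IsMaximal → ∀ i j, i ≠ j →
      pK K E v (tt α γ x) i₀ i ≤ P → pK K E v (tt α γ x) i₀ j ≤ P →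
      ∀ l, pK K E v (tt α γ x) i₀ l ≤ P)
    (ONE : ∀ P : Ideal (Bu K E v (tt α γ x)⁻¹), P.IsMaximal → s ∈ P → ∀ i j,
      pK K E v (tt α γ x)⁻¹ i₀ i ≤ P → pK K E v (tt α γ x)⁻¹ i₀ j ≤ P → i = j)
    -- local generators  [P1]
    (PRm : ∀ P : Ideal (Bu K E v (tt α γ x)), P.IsMaximal → pK K E v (tt α γ x) i₀ (md ()) ≤ P →
      ¬ pK K E v (tt α γ x) i₀ oo ≤ P → ¬ pK K E v (tt α γ x) i₀ zr ≤ P →
      ∃ ν y : Bu K E v (tt α γ x), y ∉ P ∧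
        NS.GenOn (Bu K E v (tt α γ x)) (v3 E v i₀ (md ())) (pK K E v (tt α γ x) i₀ (md ())) ν y)
    (PRoz : ∀ P : Ideal (Bu K E v (tt α γ x)), P.IsMaximal → pK K E v (tt α γ x) i₀ oo ≤ P →
      pK K E v (tt α γ x) i₀ zr ≤ P →
      ∃ ν y : Bu K E v (tt α γ x), y ∉ P ∧
        NS.GenOn (Bu K E v (tt α γ x)) (v3 E v i₀ oo) (pK K E v (tt α γ x) i₀ oo) ν y)
    (PRmi : ∀ P : Ideal (Bu K E v (tt α γ x)⁻¹), P.IsMaximal → s ∈ P →
      pK K E v (tt α γ x)⁻¹ i₀ (md ()) ≤ P →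
      ∃ ν y : Bu K E v (tt α γ x)⁻¹, y ∉ P ∧
        NS.GenOn (Bu K E v (tt α γ x)⁻¹) (v3 E v i₀ (md ())) (pK K E v (tt α γ x)⁻¹ i₀ (md ())) ν y)
    -- the exponent
    {n : ℕ} (hn : 0 < n) (hqn : Nat.Coprime q n) (hvn : v oo (n : F) = 1)
    -- generic fibre  [HG-C]
    (HGt : ∀ w : E, w ≠ 0 → (∀ P : Place K F, (n : ℤ) ∣ P.ord (w : F)) →
      ∃ (N r : ℕ) (φ : Fin r → Fin n → E), (∀ k j, φ k j ∈ NS.Lam (Bu K E v (tt α γ x)) n w) ∧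
        (∑ k, ∏ j, φ k j) * w = (πt : E) ^ N)
    (HGi : ∀ w : E, w ≠ 0 → (∀ P : Place K F, (n : ℤ) ∣ P.ord (w : F)) →
      ∃ (N r : ℕ) (φ : Fin r → Fin n → E), (∀ k j, φ k j ∈ NS.Lam (Bu K E v (tt α γ x)⁻¹) n w) ∧
        (∑ k, ∏ j, φ k j) * w = (πi : E) ^ N)
    -- the class
    {h : E} (h0 : h ≠ 0) (hord : ∀ P : Place K F, (n : ℤ) ∣ P.ord (h : F))
    (h1 : (datOf v ρ i₀ vL KK E P1 P2).NP n P1 (h : F))
    (h2 : (datOf v ρ i₀ vL KK E P1 P2).NP n P2 (h : F)) :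
    ∃ (a : K) (y : F), a ≠ 0 ∧ y ≠ 0 ∧
      (h : F) ^ ((q ^ 2 - 1) ^ 2) = algebraMap K F a * y ^ n := by
  classical
  have hq2 : 2 ≤ q := hq.two_le
  have hqK : (q : K) ≠ 0 := Nat.cast_ne_zero.2 hq.ne_zero
  have ht0 : tt α γ x ≠ 0 := by
    intro h
    apply transcendental_tt H X
    rw [h]
    exact isAlgebraic_zero
  have hn' : Nat.Coprime n q := hqn.symm
  -- the two charts
  have Vt := BK.vert H Ct hq2 hA hDt i₀
  have Vi := BK.vert H Ci hq2 hA hDi i₀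
  have KRt := BK.kr Ct i₀ (q : K) hqK πt hπt
  have KRi := BK.kr Ci i₀ (q : K) hqK πi hπi
  have hπt0 : πt ≠ 0 := by
    rintro rfl
    exact (_root_.map_ne_zero (algebraMap K F)).2 hqK hπt.symm
  have hπi0 : πi ≠ 0 := by
    rintro rfl
    exact (_root_.map_ne_zero (algebraMap K F)).2 hqK hπi.symm
  have hvq : ∀ i : Idx I, v i (algebraMap K F (q : K)) < 1 := by
    intro i
    rw [H.eqL i oo]
    have := A.base.vLo (q : K)
    have h3 := A.disc.q_lt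
    rw [← this] at h3
    exact h3
  have hqv : ∀ l, v3 E v i₀ l ((q : ℕ) : E) < 1 := by
    intro l
    rw [v3_apply]
    have := hvq (l3 i₀ l)
    simpa using this
  -- divisibility of divisors
  have hh0 : (h : F) ≠ 0 := fun hh => h0 (Subtype.ext hh)
  -- [NRM]
  obtain ⟨a, -, ha0, z, hz0, w, hw, hw1, ψ, e₁, e₁', hψ0, hee', hψ, hen, GLUE⟩ :=
    exists_chart_data H Ct i₀ A hq2 hn hqn hP1 hP2 INC h0 h1 h2
  have hz0' : (z : F) ≠ 0 := fun hh => hz0 (Subtype.ext hh)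
  have hψ0' : (ψ : F) ≠ 0 := fun hh => hψ0 (Subtype.ext hh)
  have haF : algebraMap K F a ≠ 0 := (_root_.map_ne_zero _).2 ha0
  have hw0' : (w : F) ≠ 0 := by
    rw [hw]
    exact mul_ne_zero (mul_ne_zero (pow_ne_zero _ hh0) haF) (pow_ne_zero _ hz0')
  have hw0 : w ≠ 0 := fun hh => hw0' (by rw [hh]; rfl)
  have hword : ∀ P : Place K F, (n : ℤ) ∣ P.ord (w : F) := by
    intro P
    rw [hw, Place.ord_mul P (mul_ne_zero (pow_ne_zero _ hh0) haF) (pow_ne_zero _ hz0'),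
      Place.ord_mul P (pow_ne_zero _ hh0) haF, ord_pow, ord_pow, ord_algebraMap, add_zero]
    exact dvd_add (Dvd.dvd.mul_left (hord P) _) (Dvd.intro _ rfl)
  have hwv : ∀ l, v3 E v i₀ l w = 1 := fun l => NS.val_one_of_sub _ (hw1 l)
  -- chart `t`
  have HG1 := HGt w hw0 hword
  have hprt := NS.hpr_of_disc3 Vt hπt0 KRt Dt
  have FG1 := NS.fg_abs Vt hπt0 KRt hn hwv HG1 hprt
  have PRt := NS.pr_of_cases Vt hπt0 KRt Dt INC PRm PRoz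
  obtain ⟨hw'1, hGt⟩ := NS.chart_main Vt hπt0 KRt hq hqv hn' hw1 HG1 FG1 hprt PRt (q ^ 2 - 1) ψ e₁ e₁'
    hee' hψ hen GLUE
  set w' : E := w ^ (q ^ 2 - 1) * ψ ^ n with hw'
  have hw'0' : (w' : F) ≠ 0 := by
    rw [hw']
    push_cast
    exact mul_ne_zero (pow_ne_zero _ hw0') (pow_ne_zero _ hψ0')
  have hw'0 : w' ≠ 0 := fun hh => hw'0' (by rw [hh]; rfl)
  have hw'ord : ∀ P : Place K F, (n : ℤ) ∣ P.ord (w' : F) := by
    intro P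
    rw [hw']
    push_cast
    rw [Place.ord_mul P (pow_ne_zero _ hw0') (pow_ne_zero _ hψ0'), ord_pow, ord_pow]
    exact dvd_add (Dvd.dvd.mul_left (hword P) _) (Dvd.intro _ rfl)
  have hw'v : ∀ l, v3 E v i₀ l w' = 1 := fun l => NS.val_one_of_sub _ (hw'1 l)
  -- chart `1/t`
  have hsh := exists_shift ht0 i₀ hn s hs hGt
  have HG2 := HGi w' hw'0 hw'ord
  have hpri := NS.hpr_of_disc3 Vi hπi0 KRi Di
  have FG2 := NS.fg_abs Vi hπi0 KRi hn hw'v HG2 hpri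
  have PRi := NS.pr_inf_of_cases Vi hπi0 KRi Di s ONE PRmi
  have hGi := NS.chart_inf Vi hπi0 KRi hq hqv hn' hw'1 HG2 FG2 hpri s hsh ONE PRi
  -- the global step
  obtain ⟨G0, hG0, hG0'⟩ := hGt
  obtain ⟨G1, hG1, hG1'⟩ := hGi
  obtain ⟨Y, hY⟩ := pow_of_sections H X hq2 hA Dl hI hα hγ hn hvn (w := (w' : F))
    (fun i => lt_one_of_v3 H Ct i₀ (z := w' - 1) hw'1 i)
    ⟨(G0 : F), lam_subset_II hG0, fun i => lt_one_of_v3 H Ct i₀ (z := G0 - 1) hG0' i⟩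
    ⟨(G1 : F), lam_subset_II hG1, fun i => lt_one_of_v3 H Ct i₀ (z := G1 - 1) hG1' i⟩
  have hY0 : Y ≠ 0 := by
    rintro rfl
    rw [zero_pow hn.ne'] at hY
    exact hw'0' hY.symm
  have hexp : (q + 1) * (q - 1) = q ^ 2 - 1 := by
    have := Nat.sq_sub_sq q 1
    rw [one_pow] at this
    exact this.symm
  refine ⟨(a ^ (q ^ 2 - 1))⁻¹, Y / ((z : F) ^ (q ^ 2 - 1) * (ψ : F)), inv_ne_zero (pow_ne_zero _ ha0),
    div_ne_zero hY0 (mul_ne_zero (pow_ne_zero _ hz0') hψ0'), ?_⟩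
  have e1 : (w' : F) = ((h : F) ^ ((q + 1) * (q - 1)) * algebraMap K F a * (z : F) ^ n) ^ (q ^ 2 - 1)
      * (ψ : F) ^ n := by
    rw [hw', ← hw]
    push_cast
    rfl
  rw [div_pow, hY, e1, hexp, map_inv₀, map_pow, sq ((q ^ 2 - 1 : ℕ)), pow_mul]
  field_simp
  ring

/-- **[TOP-ABS]**, with (HG) in the shape of the input of `FG.hg_Bu`. -/
theorem top_abs [Fintype I] [IsAlgClosed K] [CharZero K] [IsFF1 K F] [IsAlgClosed k]
    {x x' : F₀} {ξ ξ' : LaurentSeries k} {m : ℕ} {δ : F} {ψ₀ : LaurentSeries k} {cc : I → k}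
    -- the level structure  [FQ2C]
    (H : Lvl2 K ρ₀ v ρ α β γ q) (X : XDat K ρ₀ x x' ξ ξ' m q) (hq : q.Prime)
    (hA : ∀ i, Arch (v i)) (Dl : Del v ρ δ ψ₀ cc) (hI : q - 1 ≤ Fintype.card I)
    (hα : finrankAlong K α = q * (q + 1)) (hγ : finrankAlong K γ = q * (q + 1))
    -- the two charts  [BK-C]
    (Ct : ChartK K ρ₀ ρ α γ E₀ E q x (tt α γ x) ξ)
    (Ci : ChartK K ρ₀ ρ α γ E₀ E q x⁻¹ (tt α γ x)⁻¹ ξ⁻¹)
    (hDt : IsDedekindDomain (RP.RR (CTV.Fbar H.red₀) ξ))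
    (hDi : IsDedekindDomain (RP.RR (CTV.Fbar H.red₀) ξ⁻¹))
    (i₀ : I)
    (πt : Bu K E v (tt α γ x)) (hπt : ((πt : E) : F) = algebraMap K F (q : K))
    (πi : Bu K E v (tt α γ x)⁻¹) (hπi : ((πi : E) : F) = algebraMap K F (q : K))
    (s : Bu K E v (tt α γ x)⁻¹) (hs : ((s : E) : F) = (tt α γ x)⁻¹)
    -- [NRM]
    {vL : Valuation K Γ₀} {KK : Subfield K} {P1 P2 : F →* F}
    (A : (datOf v ρ i₀ vL KK E P1 P2).All q)
    (hP1 : ∀ z, IsInt K (tt α γ x) z → IsInt K (tt α γ x) (P1 z))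
    (hP2 : ∀ z, IsInt K (tt α γ x) z → IsInt K (tt α γ x) (P2 z))
    -- discreteness  [D3]
    {νt : Bu K E v (tt α γ x)} {νi : Bu K E v (tt α γ x)⁻¹} {e : ℕ}
    (Dt : NS.Disc3 (Bu K E v (tt α γ x)) (v3 E v i₀) oo (md ()) zr πt νt e)
    (Di : NS.Disc3 (Bu K E v (tt α γ x)⁻¹) (v3 E v i₀) oo (md ()) zr πi νi e)
    -- incidence  [INC], [INF]
    (INC : ∀ P : Ideal (Bu K E v (tt α γ x)), P.IsMaximal → ∀ i j, i ≠ j →
      pK K E v (tt α γ x) i₀ i ≤ P → pK K E v (tt α γ x) i₀ j ≤ P →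
      ∀ l, pK K E v (tt α γ x) i₀ l ≤ P)
    (ONE : ∀ P : Ideal (Bu K E v (tt α γ x)⁻¹), P.IsMaximal → s ∈ P → ∀ i j,
      pK K E v (tt α γ x)⁻¹ i₀ i ≤ P → pK K E v (tt α γ x)⁻¹ i₀ j ≤ P → i = j)
    -- local generators  [P1]
    (PRm : ∀ P : Ideal (Bu K E v (tt α γ x)), P.IsMaximal → pK K E v (tt α γ x) i₀ (md ()) ≤ P →
      ¬ pK K E v (tt α γ x) i₀ oo ≤ P → ¬ pK K E v (tt α γ x) i₀ zr ≤ P →
      ∃ ν y : Bu K E v (tt α γ x), y ∉ P ∧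
        NS.GenOn (Bu K E v (tt α γ x)) (v3 E v i₀ (md ())) (pK K E v (tt α γ x) i₀ (md ())) ν y)
    (PRoz : ∀ P : Ideal (Bu K E v (tt α γ x)), P.IsMaximal → pK K E v (tt α γ x) i₀ oo ≤ P →
      pK K E v (tt α γ x) i₀ zr ≤ P →
      ∃ ν y : Bu K E v (tt α γ x), y ∉ P ∧
        NS.GenOn (Bu K E v (tt α γ x)) (v3 E v i₀ oo) (pK K E v (tt α γ x) i₀ oo) ν y)
    (PRmi : ∀ P : Ideal (Bu K E v (tt α γ x)⁻¹), P.IsMaximal → s ∈ P →
      pK K E v (tt α γ x)⁻¹ i₀ (md ()) ≤ P →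
      ∃ ν y : Bu K E v (tt α γ x)⁻¹, y ∉ P ∧
        NS.GenOn (Bu K E v (tt α γ x)⁻¹) (v3 E v i₀ (md ())) (pK K E v (tt α γ x)⁻¹ i₀ (md ())) ν y)
    -- the exponent
    {n : ℕ} (hn : 0 < n) (hqn : Nat.Coprime q n) (hvn : v oo (n : F) = 1)
    -- generic fibre  [HG-C]
    (HGt : ∀ w : E, w ≠ 0 → (∀ P : Place K F, (n : ℤ) ∣ P.ord (w : F)) →
      ∃ (r : ℕ) (φ : Fin r → Fin n → E), (∀ k j, (φ k j : F) ∈ II K (tt α γ x) n (w : F)) ∧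
        (∑ k, ∏ j, φ k j) * w = 1)
    (HGi : ∀ w : E, w ≠ 0 → (∀ P : Place K F, (n : ℤ) ∣ P.ord (w : F)) →
      ∃ (r : ℕ) (φ : Fin r → Fin n → E), (∀ k j, (φ k j : F) ∈ II K (tt α γ x)⁻¹ n (w : F)) ∧
        (∑ k, ∏ j, φ k j) * w = 1)
    -- the class
    {h : E} (h0 : h ≠ 0) (hord : ∀ P : Place K F, (n : ℤ) ∣ P.ord (h : F))
    (h1 : (datOf v ρ i₀ vL KK E P1 P2).NP n P1 (h : F))
    (h2 : (datOf v ρ i₀ vL KK E P1 P2).NP n P2 (h : F)) :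
    ∃ (a : K) (y : F), a ≠ 0 ∧ y ≠ 0 ∧
      (h : F) ^ ((q ^ 2 - 1) ^ 2) = algebraMap K F a * y ^ n := by
  have hqK : (q : K) ≠ 0 := Nat.cast_ne_zero.2 hq.ne_zero
  have hvq : ∀ i : Idx I, v i (algebraMap K F (q : K)) < 1 := by
    intro i
    rw [H.eqL i oo]
    have := A.base.vLo (q : K)
    have h3 := A.disc.q_lt
    rw [← this] at h3
    exact h3
  have hπt0 : πt ≠ 0 := by
    rintro rfl
    exact (_root_.map_ne_zero (algebraMap K F)).2 hqK hπt.symm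
  have hπi0 : πi ≠ 0 := by
    rintro rfl
    exact (_root_.map_ne_zero (algebraMap K F)).2 hqK hπi.symm
  exact top_abs' H X hq hA Dl hI hα hγ Ct Ci hDt hDi i₀ πt hπt πi hπi s hs A hP1 hP2 Dt Di INC ONE PRm
    PRoz PRmi hn hqn hvn
    (fun w hw hP => FG.hg_Bu hA (fun i => by rw [hπt]; exact hvq i) hπt0 hn (HGt w hw hP))
    (fun w hw hP => FG.hg_Bu hA (fun i => by rw [hπi]; exact hvq i) hπi0 hn (HGi w hw hP))
    h0 hord h1 h2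

end Fermat.Agent.CAR.Main
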