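import Mathlib
import Fermat.Agent.CAR.W.Sym
import Fermat.Agent.CAR.NRM.Inst.Defs

/-!
# CAR / Main / Trans : translation between the Kummer-unit form of Theorem C and its function-field form

* `ThmCField M' q c` : for every place `A ∣ q`, every `n` prime to `q`, every `h ∈ F_K^×` (`K = ℚ̄^{I_A}`,
  `F = FN (M' q²)`) with `n ∣ div h` whose two norms to level `M' q` are `n`-th powers (over `ℚ̄`):
  `h ^ c = a y ^ n` with `a ∈ ℚ̄`, `y ∈ F`.
* `thmCSym_of_field`, `thmC_of_field` : `ThmCField M' q c → ThmCSym M' q c → ThmC M' q c`.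
-/

set_option autoImplicit false

open ModularCurve AlgebraicCurve CongruenceSubgroup
open Fermat.Agent.GAL Fermat.Agent.GR.CB Fermat.Agent.TOR Fermat.Agent.S24 Fermat.Agent.TOR.GB
open Fermat.Agent.GR.HeckeField Fermat.Agent.CAR.NRM.Inst

noncomputable section

namespace Fermat.Agent.CAR.Main

open Fermat.Agent.CAR.W

variable (M' q : ℕ) [NeZero M'] [NeZero q]

/-- **Theorem C, function field form** (target of the geometric assembly). -/
def ThmCField (c : ℕ) : Prop :=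
  ∀ A : ValuationSubring Qb, A.LiesOverPrime q → ∀ n : ℕ, 0 < n → Nat.Coprime q n →
    ∀ h : FN (M' * q * q), h ∈ FK A (M' * q * q) → h ≠ 0 →
      (∀ P : Place Qb (FL Qb (M' * q * q)), (n : ℤ) ∣ P.ord h) →
      (∃ y : FN (M' * q), y ^ n = FQ2E.N1 M' q h) → (∃ y : FN (M' * q), y ^ n = FQ2E.N2 M' q h) →
      ∃ (a : Qb) (y : FN (M' * q * q)), h ^ c = algebraMap Qb (FN (M' * q * q)) a * y ^ n

variable {M' q}

theorem thmCSym_of_field (hq : q.Prime) {c : ℕ} (H : ThmCField M' q c) : ThmCSym M' q c := by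
  intro n hn hqn u hu hB A hA hinv
  set M := M' * q * q with hM
  have hu0 : (u : LaurentSeries Qb) ≠ 0 := u.ne_zero
  -- an inertia-fixed representative
  obtain ⟨u', hu', hr, hfix⟩ := DSC.exists_fixed_rep (IA A) hn hu (fun τ hτ => by
    have h1 := hinv τ hτ
    rw [mem_FLU, Units.val_mul, GR.CB.coe_galU, Units.val_inv_eq_inv_val, ← div_eq_mul_inv] at h1
    exact h1)
  have hu'0 : u' ≠ 0 := hu'.1
  obtain ⟨-, hf, hdiv⟩ := hu'
  obtain ⟨z, hz, ⟨y₁, hy₁⟩, ⟨y₂, hy₂⟩⟩ := hB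
  -- `h = u' ^ n = z r ^ n`
  let h : FN M := ⟨u' ^ n, hf⟩
  let r : FN M := ⟨u' / u, hr⟩
  have hh : h = z * r ^ n := by
    apply Subtype.ext
    show u' ^ n = (z : LaurentSeries Qb) * (u' / u) ^ n
    rw [hz, div_pow, mul_div_cancel₀ _ (pow_ne_zero n hu0)]
  have hh0 : h ≠ 0 := fun h0 => pow_ne_zero n hu'0 (congrArg Subtype.val h0)
  have hhK : h ∈ FK A M := by
    intro τ hτ
    apply Subtype.ext
    rw [coe_galF]
    show galS τ (u' ^ n) = u' ^ n
    rw [map_pow, hfix τ hτ]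
  obtain ⟨a, y, hay⟩ := H A hA n (Nat.pos_of_ne_zero hn) ((Nat.Prime.coprime_iff_not_dvd hq).2 hqn)
    h hhK hh0 hdiv
    ⟨y₁ * FQ2E.N1 M' q r, by rw [mul_pow, hy₁, hh, map_mul, map_pow]⟩
    ⟨y₂ * FQ2E.N2 M' q r, by rw [mul_pow, hy₂, hh, map_mul, map_pow]⟩
  -- back to `u`
  have hay' : (u' ^ n) ^ c = HahnSeries.C a * (y : LaurentSeries Qb) ^ n := by
    have h5 := congrArg (Subtype.val) hay
    rw [C_eq_algebraMap]
    exact h5
  have hy0 : (y : LaurentSeries Qb) ≠ 0 := by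
    intro h0
    rw [h0, zero_pow hn, mul_zero] at hay'
    exact pow_ne_zero c (pow_ne_zero n hu'0) hay'
  have h1 : (u' ^ c / (y : LaurentSeries Qb)) ^ n = HahnSeries.C a := by
    rw [div_pow, ← pow_mul, mul_comm c n, pow_mul, hay', mul_div_cancel_right₀ _ (pow_ne_zero n hy0)]
  have h2 : u' ^ c / (y : LaurentSeries Qb) ∈ FL Qb M := mem_FL_of_pow_eq_C M hn h1
  have h3 : u' ^ c ∈ FL Qb M := by
    have := mul_mem h2 y.2
    rwa [div_mul_cancel₀ _ hy0] at this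
  rw [mem_FLU, Units.val_pow_eq_pow_val]
  have h4 : (u : LaurentSeries Qb) ^ c = u' ^ c / (u' / u) ^ c := by
    rw [div_pow, div_div_cancel₀ (pow_ne_zero c hu'0)]
  rw [h4]
  exact div_mem h3 (pow_mem hr c)

theorem thmC_of_field (hq : q.Prime) (hqM : ¬ q ∣ M') {c : ℕ} (H : ThmCField M' q c) :
    ThmC M' q c :=
  thmC_of_sym hq hqM (thmCSym_of_field hq H)

end Fermat.Agent.CAR.Main
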