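import Fermat.Agent.CAR.Main.Abs
import Fermat.Agent.CAR.Main.Trans
import Fermat.Agent.CAR.NRM.Inst.Bridge
import Fermat.Agent.CAR.BK.ConcKR
import Fermat.Agent.S37.ClausesOf
import Fermat.Agent.GAL.ESR.Gauss

/-!
# CAR / Main / Conc : `top_abs` at the concrete level `F = FN (M' q²)`, `E = FK A (M' q²)`

`thmCField_of` :  `ThmCField M' q ((q²-1)²)`  (the target of [TRANS], `CAR/Main/Trans.lean`)  from the two structures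

* `Geo M' q A ζ i₀` (`= GeoE M' q A ζ (FK A (M' q²)) i₀`; `geo_of_EC` for `E = BK.EC`) : what is left of the geometry of the two charts `BF = B_t`, `BFinf = B_{1/t}`
  (discreteness [D3], incidence [INC], branches at infinity [INF], local generators [P1]);
* `Gen M' q A ζ n`   : the hypothesis (HG) on the generic fibre [HG-C].

Everything else ([FQ2C], [BK-C], [RP], [NRM], [NS], [ON], [KLm]) is plugged in.
-/

set_option autoImplicit false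

open ModularCurve AlgebraicCurve

noncomputable section

namespace Fermat.Agent.CAR.Main

open Fermat.Agent.GR Fermat.Agent.GAL Fermat.Agent.GAL.KL Fermat.Agent.GAL.KLC Fermat.Agent.S24
open Fermat.Agent.S28 Fermat.Agent.GR.HeckeField Fermat.Agent.TOR Fermat.Agent.TOR.GB
open Fermat.Agent.CAR.FQ2V Fermat.Agent.CAR.FQ2E Fermat.Agent.CAR.FQ2C Fermat.Agent.CAR.ON
open Fermat.Agent.CAR.BK Fermat.Agent.CAR.NRM.Inst Fermat.Agent.CAR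

variable (M' q : ℕ) [NeZero M'] [NeZero q] (A : ValuationSubring Qb) (ζ : Qbˣ)

/-- **what is left of the geometry**, for an arbitrary subfield `E` (`E = FK A (M' q²)` or `E = BK.EC A (M' q²)`). -/
structure GeoE (E : Subfield (FN (M' * q * q))) (i₀ : (ZMod q)ˣ) : Prop where
  /-- [D3] discreteness on both charts (`π = q`, `e = q - 1`) -/
  disc : ∃ (νt : Bu Qb E (vC M' q A ζ) (FQ2C.tC M' q)) (νi : Bu Qb E (vC M' q A ζ) (FQ2C.tC M' q)⁻¹)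
      (e : ℕ),
    NS.Disc3 (Bu Qb E (vC M' q A ζ) (FQ2C.tC M' q)) (v3 E (vC M' q A ζ) i₀) oo (md ()) zr
      (q : Bu Qb E (vC M' q A ζ) (FQ2C.tC M' q)) νt e ∧
    NS.Disc3 (Bu Qb E (vC M' q A ζ) (FQ2C.tC M' q)⁻¹) (v3 E (vC M' q A ζ) i₀) oo (md ()) zr
      (q : Bu Qb E (vC M' q A ζ) (FQ2C.tC M' q)⁻¹) νi e
  /-- [INC] two branches through a closed point of the chart `t` ⇒ all three -/
  inc : ∀ P : Ideal (Bu Qb E (vC M' q A ζ) (FQ2C.tC M' q)), P.IsMaximal → ∀ i j, i ≠ j →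
    pK Qb E (vC M' q A ζ) (FQ2C.tC M' q) i₀ i ≤ P → pK Qb E (vC M' q A ζ) (FQ2C.tC M' q) i₀ j ≤ P →
    ∀ l, pK Qb E (vC M' q A ζ) (FQ2C.tC M' q) i₀ l ≤ P
  /-- [P1] (E-md) -/
  prm : ∀ P : Ideal (Bu Qb E (vC M' q A ζ) (FQ2C.tC M' q)), P.IsMaximal →
    pK Qb E (vC M' q A ζ) (FQ2C.tC M' q) i₀ (md ()) ≤ P →
    ¬ pK Qb E (vC M' q A ζ) (FQ2C.tC M' q) i₀ oo ≤ P →
    ¬ pK Qb E (vC M' q A ζ) (FQ2C.tC M' q) i₀ zr ≤ P →
    ∃ ν y : Bu Qb E (vC M' q A ζ) (FQ2C.tC M' q), y ∉ P ∧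
      NS.GenOn (Bu Qb E (vC M' q A ζ) (FQ2C.tC M' q)) (v3 E (vC M' q A ζ) i₀ (md ()))
        (pK Qb E (vC M' q A ζ) (FQ2C.tC M' q) i₀ (md ())) ν y
  /-- [P1] (E-oo) -/
  proz : ∀ P : Ideal (Bu Qb E (vC M' q A ζ) (FQ2C.tC M' q)), P.IsMaximal →
    pK Qb E (vC M' q A ζ) (FQ2C.tC M' q) i₀ oo ≤ P →
    pK Qb E (vC M' q A ζ) (FQ2C.tC M' q) i₀ zr ≤ P →
    ∃ ν y : Bu Qb E (vC M' q A ζ) (FQ2C.tC M' q), y ∉ P ∧
      NS.GenOn (Bu Qb E (vC M' q A ζ) (FQ2C.tC M' q)) (v3 E (vC M' q A ζ) i₀ oo)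
        (pK Qb E (vC M' q A ζ) (FQ2C.tC M' q) i₀ oo) ν y
  /-- [INF] + [P1] (E-inf): the chart `1/t` along `s = 1/t = 0` -/
  inf : ∃ s : Bu Qb E (vC M' q A ζ) (FQ2C.tC M' q)⁻¹,
    ((s : E) : FN (M' * q * q)) = (FQ2C.tC M' q)⁻¹ ∧
    (∀ P : Ideal (Bu Qb E (vC M' q A ζ) (FQ2C.tC M' q)⁻¹), P.IsMaximal → s ∈ P → ∀ i j,
      pK Qb E (vC M' q A ζ) (FQ2C.tC M' q)⁻¹ i₀ i ≤ P →
      pK Qb E (vC M' q A ζ) (FQ2C.tC M' q)⁻¹ i₀ j ≤ P → i = j) ∧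
    ∀ P : Ideal (Bu Qb E (vC M' q A ζ) (FQ2C.tC M' q)⁻¹), P.IsMaximal → s ∈ P →
      pK Qb E (vC M' q A ζ) (FQ2C.tC M' q)⁻¹ i₀ (md ()) ≤ P →
      ∃ ν y : Bu Qb E (vC M' q A ζ) (FQ2C.tC M' q)⁻¹, y ∉ P ∧
        NS.GenOn (Bu Qb E (vC M' q A ζ) (FQ2C.tC M' q)⁻¹) (v3 E (vC M' q A ζ) i₀ (md ()))
          (pK Qb E (vC M' q A ζ) (FQ2C.tC M' q)⁻¹ i₀ (md ())) ν y

/-- **what is left of the geometry** (`E = FK A (M' q²)`: rings `BK.BF`, `BK.BFinf`). -/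
abbrev Geo (i₀ : (ZMod q)ˣ) : Prop := GeoE M' q A ζ (FK A (M' * q * q)) i₀

/-- the same for `E = BK.EC A (M' q²)` (rings `BK.BC`, `BK.BCinf`). -/
theorem geo_of_EC {i₀ : (ZMod q)ˣ} (h : GeoE M' q A ζ (EC A (M' * q * q)) i₀) : Geo M' q A ζ i₀ := by
  have := EC_eq_FK A (M' * q * q)
  rw [this] at h
  exact h

/-- **the generic fibre** [HG-C] (input of `FG.hg_Bu`). -/
structure Gen (n : ℕ) : Prop where
  hgt : ∀ w : FK A (M' * q * q), w ≠ 0 →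
    (∀ P : Place Qb (FN (M' * q * q)), (n : ℤ) ∣ P.ord (w : FN (M' * q * q))) →
    ∃ (r : ℕ) (φ : Fin r → Fin n → FK A (M' * q * q)),
      (∀ k j, (φ k j : FN (M' * q * q)) ∈ II Qb (FQ2C.tC M' q) n (w : FN (M' * q * q))) ∧
      (∑ k, ∏ j, φ k j) * w = 1
  hgi : ∀ w : FK A (M' * q * q), w ≠ 0 →
    (∀ P : Place Qb (FN (M' * q * q)), (n : ℤ) ∣ P.ord (w : FN (M' * q * q))) →
    ∃ (r : ℕ) (φ : Fin r → Fin n → FK A (M' * q * q)),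
      (∀ k j, (φ k j : FN (M' * q * q)) ∈ II Qb (FQ2C.tC M' q)⁻¹ n (w : FN (M' * q * q))) ∧
      (∑ k, ∏ j, φ k j) * w = 1

variable {M' q A ζ}

/-- **Theorem C (function field form) at one place `A ∣ q`.** -/
theorem pow_eq_of_geo (hM : AdmLevel M') (hq : q.Prime) (hqM : ¬ q ∣ M') (hA : A.LiesOverPrime q)
    (hζ : IsPrimitiveRoot ζ q) {i₀ : (ZMod q)ˣ} (G : Geo M' q A ζ i₀) {n : ℕ} (hn : 0 < n)
    (hqn : Nat.Coprime q n) (Gn : Gen M' q A n) {h : FN (M' * q * q)}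
    (hK : h ∈ FK A (M' * q * q)) (h0 : h ≠ 0)
    (hord : ∀ P : Place Qb (FN (M' * q * q)), (n : ℤ) ∣ P.ord h)
    (hy₁ : ∃ y : FN (M' * q), y ^ n = N1 M' q h) (hy₂ : ∃ y : FN (M' * q), y ^ n = N2 M' q h) :
    ∃ (a : Qb) (y : FN (M' * q * q)), a ≠ 0 ∧ y ≠ 0 ∧
      h ^ ((q ^ 2 - 1) ^ 2) = algebraMap Qb (FN (M' * q * q)) a * y ^ n := by
  have : IsAlgClosed (kA A) := Fermat.Agent.S37.isAlgClosed_kA A
  obtain ⟨νt, νi, e, Dt, Di⟩ := G.disc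
  obtain ⟨s, hs, ONE, PRmi⟩ := G.inf
  have hqn' : ¬ q ∣ n := (Nat.Prime.coprime_iff_not_dvd hq).1 hqn
  exact top_abs (FQ2C.lvl2 A ζ hq hqM hA hζ) (xDatC A hM hq hqM hA) hq (arch_C A ζ hq hA)
    (delStd A ζ hq hqM hA hζ) (card_units hq).ge (finrankAlong_al hq hqM) (finrankAlong_ga hq hqM)
    (chartF A ζ hM hq hqM hA hζ) (chartF_inv A ζ hM hq hqM hA hζ)
    (RP.isDedekindDomain_RC M' q hM hq hqM A hA) (RP.isDedekindDomain_RCinf M' q hM hq hqM A hA) i₀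
    (q : BF M' q A ζ) (coe_natCast_Bu _ _ _ q) (q : BFinf M' q A ζ) (coe_natCast_Bu _ _ _ q) s hs
    (all_datOf hq hqM hA hζ i₀) (isInt_P1 hM hq hqM hA) (isInt_P2 hM hq hqM hA) Dt Di G.inc ONE
    G.prm G.proz PRmi hn hqn (vC_natCast A ζ hq hA hqn' _) Gn.hgt Gn.hgi (h := ⟨h, hK⟩)
    (fun hh => h0 (congrArg Subtype.val hh)) hord
    (np_P1 hq hqM (FQ2C.eMidG M' q (zpw q ζ i₀)) hn hK h0 hy₁)
    (np_P2 hq hqM (FQ2C.eMidG M' q (zpw q ζ i₀)) hn hK h0 hy₂)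

/-- **[TOP-CONC], checklist form**: Theorem C (function field form) from `Geo` and `Gen`. -/
theorem thmCField_of (hM : AdmLevel M') (hq : q.Prime) (hqM : ¬ q ∣ M')
    (hG : ∀ A : ValuationSubring Qb, A.LiesOverPrime q → ∀ ζ : Qbˣ, IsPrimitiveRoot ζ q →
      ∃ i₀ : (ZMod q)ˣ, Geo M' q A ζ i₀)
    (hGn : ∀ A : ValuationSubring Qb, A.LiesOverPrime q → ∀ n : ℕ, 0 < n → Nat.Coprime q n →
      Gen M' q A n) :
    ThmCField M' q ((q ^ 2 - 1) ^ 2) := by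
  intro A hA n hn hqn h hK h0 hord hy₁ hy₂
  obtain ⟨ζ, hζ⟩ := Fermat.Agent.GAL.exists_primitiveRoot_Qb q
  obtain ⟨i₀, G⟩ := hG A hA ζ hζ
  obtain ⟨a, y, -, -, hay⟩ := pow_eq_of_geo hM hq hqM hA hζ G hn hqn (hGn A hA n hn hqn) hK h0 hord
    hy₁ hy₂
  exact ⟨a, y, hay⟩

/-- **Theorem C (function field form) at one place `A ∣ q`**, (HG) plugged in (`BK.hgF`, `BK.hgF_inv`): only `Geo` is left. -/
theorem pow_eq_of_geo' (hM : AdmLevel M') (hq : q.Prime) (hqM : ¬ q ∣ M') (hA : A.LiesOverPrime q)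
    (hζ : IsPrimitiveRoot ζ q) {i₀ : (ZMod q)ˣ} (G : Geo M' q A ζ i₀) {n : ℕ} (hn : 0 < n)
    (hqn : Nat.Coprime q n) {h : FN (M' * q * q)}
    (hK : h ∈ FK A (M' * q * q)) (h0 : h ≠ 0)
    (hord : ∀ P : Place Qb (FN (M' * q * q)), (n : ℤ) ∣ P.ord h)
    (hy₁ : ∃ y : FN (M' * q), y ^ n = N1 M' q h) (hy₂ : ∃ y : FN (M' * q), y ^ n = N2 M' q h) :
    ∃ (a : Qb) (y : FN (M' * q * q)), a ≠ 0 ∧ y ≠ 0 ∧
      h ^ ((q ^ 2 - 1) ^ 2) = algebraMap Qb (FN (M' * q * q)) a * y ^ n := by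
  have : IsAlgClosed (kA A) := Fermat.Agent.S37.isAlgClosed_kA A
  obtain ⟨νt, νi, e, Dt, Di⟩ := G.disc
  obtain ⟨s, hs, ONE, PRmi⟩ := G.inf
  have hqn' : ¬ q ∣ n := (Nat.Prime.coprime_iff_not_dvd hq).1 hqn
  exact top_abs' (FQ2C.lvl2 A ζ hq hqM hA hζ) (xDatC A hM hq hqM hA) hq (arch_C A ζ hq hA)
    (delStd A ζ hq hqM hA hζ) (card_units hq).ge (finrankAlong_al hq hqM) (finrankAlong_ga hq hqM)
    (chartF A ζ hM hq hqM hA hζ) (chartF_inv A ζ hM hq hqM hA hζ)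
    (RP.isDedekindDomain_RC M' q hM hq hqM A hA) (RP.isDedekindDomain_RCinf M' q hM hq hqM A hA) i₀
    (q : BF M' q A ζ) (coe_natCast_Bu _ _ _ q) (q : BFinf M' q A ζ) (coe_natCast_Bu _ _ _ q) s hs
    (all_datOf hq hqM hA hζ i₀) (isInt_P1 hM hq hqM hA) (isInt_P2 hM hq hqM hA) Dt Di G.inc ONE
    G.prm G.proz PRmi hn hqn (vC_natCast A ζ hq hA hqn' _)
    (fun _ hw hP => hgF A ζ hM hq hqM hA hζ hn hw hP)
    (fun _ hw hP => hgF_inv A ζ hM hq hqM hA hζ hn hw hP) (h := ⟨h, hK⟩)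
    (fun hh => h0 (congrArg Subtype.val hh)) hord
    (np_P1 hq hqM (FQ2C.eMidG M' q (zpw q ζ i₀)) hn hK h0 hy₁)
    (np_P2 hq hqM (FQ2C.eMidG M' q (zpw q ζ i₀)) hn hK h0 hy₂)

/-- **[TOP-CONC], final checklist form**: Theorem C (function field form) from `Geo` ALONE. -/
theorem thmCField_of_geo (hM : AdmLevel M') (hq : q.Prime) (hqM : ¬ q ∣ M')
    (hG : ∀ A : ValuationSubring Qb, A.LiesOverPrime q → ∀ ζ : Qbˣ, IsPrimitiveRoot ζ q →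
      ∃ i₀ : (ZMod q)ˣ, Geo M' q A ζ i₀) :
    ThmCField M' q ((q ^ 2 - 1) ^ 2) := by
  intro A hA n hn hqn h hK h0 hord hy₁ hy₂
  obtain ⟨ζ, hζ⟩ := Fermat.Agent.GAL.exists_primitiveRoot_Qb q
  obtain ⟨i₀, G⟩ := hG A hA ζ hζ
  obtain ⟨a, y, -, -, hay⟩ := pow_eq_of_geo' hM hq hqM hA hζ G hn hqn hK h0 hord hy₁ hy₂
  exact ⟨a, y, hay⟩

end Fermat.Agent.CAR.Main
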