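import Fermat.Agent.CAR.Main.Conc
import Fermat.Agent.CAR.BK.ConcKR

/-!
# CAR / Main / GenC : the structure `Gen M' q A n` ([HG-C], generic fibre) is PROVED.
-/

set_option autoImplicit false

open ModularCurve AlgebraicCurve

noncomputable section

namespace Fermat.Agent.CAR.Main

open Fermat.Agent.GR Fermat.Agent.GAL Fermat.Agent.GAL.KL Fermat.Agent.GAL.KLC Fermat.Agent.S24
open Fermat.Agent.S28 Fermat.Agent.GR.HeckeField Fermat.Agent.TOR Fermat.Agent.TOR.GB
open Fermat.Agent.CAR.FQ2C Fermat.Agent.CAR.BK Fermat.Agent.CAR.NRM.Inst Fermat.Agent.CAR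

variable {M' q : ℕ} [NeZero M'] [NeZero q] {A : ValuationSubring Qb}

/-- `t ∈ FK`. -/
theorem tC_mem_FK (A : ValuationSubring Qb) : FQ2C.tC M' q ∈ FK A (M' * q * q) :=
  EC_eq_FK A _ ▸ tC_mem_EC A

/-- **[HG-C]** : the hypothesis `hGn` of `thmCField_of`. -/
theorem genC (hM : AdmLevel M') (hq : q.Prime) (hqM : ¬ q ∣ M') (hA : A.LiesOverPrime q) {n : ℕ}
    (hn : 0 < n) : Gen M' q A n := by
  obtain ⟨ζ, hζ⟩ := Fermat.Agent.GAL.exists_primitiveRoot_Qb q
  have htr := transcendental_tC A ζ hM hq hqM hA hζ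
  exact
  { hgt := fun w hw hP => hgGen_FK A (tC_mem_FK A) htr hn w hw hP
    hgi := fun w hw hP =>
      hgGen_FK A (inv_mem (tC_mem_FK A)) (S24.FF.transcendental_inv htr) hn w hw hP }

end Fermat.Agent.CAR.Main
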