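import Fermat.Agent.CAR.Main.Conc
import Fermat.Agent.CAR.D3.Conc
import Fermat.Agent.CAR.XT.Inc
import Fermat.Agent.CAR.BK.ConcInf
import Fermat.Agent.CAR.P1F.BKMain

/-!
# CAR / Main / Geo : assembly of the structure `GeoE M' q A ζ (BK.EC A (M' q²)) i₀`

* `disc` : `D3.exists_disc3C`, `D3.exists_disc3C_inv`;
* `inc`  : `XT.incC`;
* `inf` (first two parts) : `BK.exists_sC`, `BK.oneC`;
* `prm`, `proz`, `inf` (third part) : the count `P1F.pr_BK`, whose five concrete inputs are the hypotheses of `geoEC_of_count`.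
-/

set_option autoImplicit false

open ModularCurve AlgebraicCurve

noncomputable section

namespace Fermat.Agent.CAR.Main

open Fermat.Agent.GR Fermat.Agent.GAL Fermat.Agent.GAL.KL Fermat.Agent.GAL.KLC Fermat.Agent.S24
open Fermat.Agent.S28 Fermat.Agent.GR.HeckeField Fermat.Agent.TOR Fermat.Agent.TOR.GB
open Fermat.Agent.CAR.FQ2V Fermat.Agent.CAR.FQ2E Fermat.Agent.CAR.FQ2C Fermat.Agent.CAR.ON
open Fermat.Agent.CAR.BK Fermat.Agent.CAR.NRM.Inst Fermat.Agent.CAR Fermat.Agent.TOR.T1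

variable {M' q : ℕ} [NeZero M'] [NeZero q] {A : ValuationSubring Qb} {ζ : Qbˣ}

/-- **`GeoE` at `E = BK.EC`, from the three local-generator statements** (for ANY `Disc3` datum of the chart `t` and ANY
section `s = 1/t`, so that both counts can be plugged in). -/
theorem geoEC_of_pr (hM : AdmLevel M') (hq : q.Prime) (hqM : ¬ q ∣ M') (hA : A.LiesOverPrime q)
    (hζ : IsPrimitiveRoot ζ q) (i₀ : (ZMod q)ˣ)
    (PR : ∀ (νt : BC M' q A ζ) (s : BCinf M' q A ζ),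
      NS.Disc3 (BC M' q A ζ) (v3 (EC A (M' * q * q)) (vC M' q A ζ) i₀) oo (md ()) zr
        (q : BC M' q A ζ) νt (q - 1) →
      ((s : EC A (M' * q * q)) : FN (M' * q * q)) = (FQ2C.tC M' q)⁻¹ →
      (∀ P : Ideal (BC M' q A ζ), P.IsMaximal →
        pK Qb (EC A (M' * q * q)) (vC M' q A ζ) (FQ2C.tC M' q) i₀ (md ()) ≤ P →
        ¬ pK Qb (EC A (M' * q * q)) (vC M' q A ζ) (FQ2C.tC M' q) i₀ oo ≤ P →
        ¬ pK Qb (EC A (M' * q * q)) (vC M' q A ζ) (FQ2C.tC M' q) i₀ zr ≤ P →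
        ∃ ν y : BC M' q A ζ, y ∉ P ∧
          NS.GenOn (BC M' q A ζ) (v3 (EC A (M' * q * q)) (vC M' q A ζ) i₀ (md ()))
            (pK Qb (EC A (M' * q * q)) (vC M' q A ζ) (FQ2C.tC M' q) i₀ (md ())) ν y) ∧
      (∀ P : Ideal (BC M' q A ζ), P.IsMaximal →
        pK Qb (EC A (M' * q * q)) (vC M' q A ζ) (FQ2C.tC M' q) i₀ oo ≤ P →
        pK Qb (EC A (M' * q * q)) (vC M' q A ζ) (FQ2C.tC M' q) i₀ zr ≤ P →
        ∃ ν y : BC M' q A ζ, y ∉ P ∧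
          NS.GenOn (BC M' q A ζ) (v3 (EC A (M' * q * q)) (vC M' q A ζ) i₀ oo)
            (pK Qb (EC A (M' * q * q)) (vC M' q A ζ) (FQ2C.tC M' q) i₀ oo) ν y) ∧
      (∀ P : Ideal (BCinf M' q A ζ), P.IsMaximal → s ∈ P →
        pK Qb (EC A (M' * q * q)) (vC M' q A ζ) (FQ2C.tC M' q)⁻¹ i₀ (md ()) ≤ P →
        ∃ ν y : BCinf M' q A ζ, y ∉ P ∧
          NS.GenOn (BCinf M' q A ζ) (v3 (EC A (M' * q * q)) (vC M' q A ζ) i₀ (md ()))
            (pK Qb (EC A (M' * q * q)) (vC M' q A ζ) (FQ2C.tC M' q)⁻¹ i₀ (md ())) ν y)) :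
    GeoE M' q A ζ (EC A (M' * q * q)) i₀ := by
  obtain ⟨νt, -, Dt⟩ := D3.exists_disc3C A ζ hM hq hqM hA hζ i₀
  obtain ⟨νi, -, Di⟩ := D3.exists_disc3C_inv A ζ hM hq hqM hA hζ i₀
  obtain ⟨s, hs⟩ := exists_sC A ζ hM hq hqM hA hζ
  obtain ⟨h1, h2, h3⟩ := PR νt s Dt hs
  exact
  { disc := ⟨νt, νi, q - 1, Dt, Di⟩
    inc := XT.incC hM hq hqM A hA ζ hζ i₀ Dt
    prm := h1
    proz := h2
    inf := ⟨s, hs, oneC A ζ hM hq hqM hA hζ i₀ s hs, h3⟩ }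

/-- **`GeoE` at `E = BK.EC`, from the five concrete inputs of the count `P1F.pr_BK`.** -/
theorem geoEC_of_count (hM : AdmLevel M') (hq : q.Prime) (hqM : ¬ q ∣ M') (hA : A.LiesOverPrime q)
    (hζ : IsPrimitiveRoot ζ q) (i₀ : (ZMod q)ˣ)
    (sc : ∀ c : kA A, ∃ a : Qb, algebraMap Qb (FN (M' * q * q)) a ∈ EC A (M' * q * q) ∧
      Rd (rhoC M' q A ζ oo) (algebraMap Qb (FN (M' * q * q)) a) (HahnSeries.C c) ∧
      Rd (rhoC M' q A ζ (md i₀)) (algebraMap Qb (FN (M' * q * q)) a) (HahnSeries.C c) ∧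
      Rd (rhoC M' q A ζ zr) (algebraMap Qb (FN (M' * q * q)) a) (HahnSeries.C c))
    {g : ℕ} (hC : RP.IsCurve (CTV.Fbar (FQ2C.lvl2 A ζ hq hqM hA hζ).red₀) (xR (kA A) M') g)
    {Hh : LaurentSeries (kA A)} {Nn : ℕ} {Xo Xo' Xz Xz' : FN (M' * q * q)}
    (hX : ∀ νt : BC M' q A ζ,
      P1F.XOk (P1F.datBK (EC A (M' * q * q)) (vC M' q A ζ) (rhoC M' q A ζ) i₀ (FQ2C.tC M' q)
        (q : Qb) ((νt : EC A (M' * q * q)) : FN (M' * q * q)) (q - 1)) Hh Nn Xo Xo' Xz Xz')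
    {g₂ : ℤ} {J : Type*} {c : J → FN (M' * q * q) →ₗ[Qb] Qb}
    (hL : ∀ νt : BC M' q A ζ,
      P1F.LOk (P1F.datBK (EC A (M' * q * q)) (vC M' q A ζ) (rhoC M' q A ζ) i₀ (FQ2C.tC M' q)
        (q : Qb) ((νt : EC A (M' * q * q)) : FN (M' * q * q)) (q - 1))
        (2 * ((q * q + 1) * mX M') + (q - 1) * ((1 + 1) * mX M')) g₂ c)
    (hnum : (Nn : ℤ) * (1 - g₂) = ((q : ℤ) + 1) * (Nn * (1 - (g : ℤ)) + Hh.order)) :
    GeoE M' q A ζ (EC A (M' * q * q)) i₀ := by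
  have : IsAlgClosed (kA A) := Fermat.Agent.S37.isAlgClosed_kA A
  refine geoEC_of_pr hM hq hqM hA hζ i₀ fun νt s Dt hs => ?_
  exact P1F.pr_BK (FQ2C.lvl2 A ζ hq hqM hA hζ) (xDatC A hM hq hqM hA) hq.two_le
    (Nat.cast_ne_zero.2 hq.ne_zero) (arch_C A ζ hq hA)
    (chartC A ζ hM hq hqM hA hζ) (chartC_inv A ζ hM hq hqM hA hζ)
    (RP.isDedekindDomain_RC M' q hM hq hqM A hA) (RP.isDedekindDomain_RCinf M' q hM hq hqM A hA) i₀
    (q : BC M' q A ζ) (coe_natCast_Bu _ _ _ q) (q : BCinf M' q A ζ) (coe_natCast_Bu _ _ _ q) s hs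
    Dt (Nat.sub_add_cancel hq.one_le) (oneC A ζ hM hq hqM hA hζ i₀ s hs) sc hC (hX νt) (hL νt) hnum

end Fermat.Agent.CAR.Main
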