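import Fermat.Agent.CAR.Main.Conc
import Fermat.Agent.CAR.XT.Inc
import Fermat.Agent.CAR.BK.ConcInf
import Fermat.Agent.CAR.BK.ConcCnt
import Fermat.Agent.CAR.BK.SpanC
import Fermat.Agent.CAR.BK.BLC
import Fermat.Agent.CAR.D3.Conc
import Fermat.Agent.CAR.P1F.BKMain
import Fermat.Agent.CAR.P1.Conc.RI
import Fermat.Agent.CAR.TH1.Formal

/-!
# CAR / Main / GeoP1F : the structure `Geo` is PROVED (route `P1F.pr_BK`), hence `ThmCField`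
-/

set_option autoImplicit false

open ModularCurve AlgebraicCurve

noncomputable section

namespace Fermat.Agent.CAR.Main

open Fermat.Agent.GR Fermat.Agent.GAL Fermat.Agent.GAL.KL Fermat.Agent.GAL.KLC Fermat.Agent.S24
open Fermat.Agent.S28 Fermat.Agent.GR.HeckeField Fermat.Agent.TOR Fermat.Agent.TOR.GB
open Fermat.Agent.CAR.FQ2V Fermat.Agent.CAR.FQ2E Fermat.Agent.CAR.FQ2C Fermat.Agent.CAR.ON
open Fermat.Agent.CAR.BK Fermat.Agent.CAR.NRM.Inst Fermat.Agent.CAR Fermat.Agent.CAR.XT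

variable {M' q : ℕ} [NeZero M'] [NeZero q] (A : ValuationSubring Qb) (ζ : Qbˣ)
  (hM : AdmLevel M') (hq : q.Prime) (hqM : ¬ q ∣ M') (hA : A.LiesOverPrime q)
  (hζ : IsPrimitiveRoot ζ q)

/-- the coefficient functionals. -/
def cfP1F (N : ℕ) (n : ℤ) : FN N →ₗ[Qb] Qb where
  toFun z := (z : LaurentSeries Qb).coeff n
  map_add' _ _ := rfl
  map_smul' a z := by
    show (Lift_incl N (a • z)).coeff n = a • (Lift_incl N z).coeff n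
    rw [map_smul]
    rfl

include hM hq hqM hA hζ

theorem xOk_P1F (i₀ : (ZMod q)ˣ) (ν : FN (M' * q * q)) (e : ℕ) :
    P1F.XOk (P1F.datBK (EC A (M' * q * q)) (vC M' q A ζ) (rhoC M' q A ζ) i₀ (FQ2C.tC M' q) (q : Qb)
      ν e) (HX M' q A) (NX M') (Xo M' q) (Xo' M' q) (Xz M' q) (Xz' M' q) where
  Nn0 := NX_pos M'
  H0 := HX_ne_zero A
  XoB := ⟨Xo_mem_EC hq hqM A, isInt_Xo hM hq hqM A hA (isInt_XF_inv_t1C hq hqM),
    vC_Xo_le hq hqM A hA ζ hζ _, vC_Xo_le hq hqM A hA ζ hζ _, vC_Xo_le hq hqM A hA ζ hζ _⟩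
  Xo'B := ⟨Xo'_mem_EC A, isInt_Xo' hM hq hqM A hA (isInt_XF_t1C hq hqM),
    vC_Xo'_le hq hqM A hA ζ hζ _, vC_Xo'_le hq hqM A hA ζ hζ _, vC_Xo'_le hq hqM A hA ζ hζ _⟩
  XzB := ⟨Xz_mem_EC A, isInt_Xz hM hq hqM A hA (isInt_XF_t1C hq hqM),
    vC_Xz_le hq hqM A hA ζ _, vC_Xz_le hq hqM A hA ζ _, vC_Xz_le hq hqM A hA ζ _⟩
  Xz'B := ⟨Xz'_mem_EC hq hqM A, isInt_Xz' hM hq hqM A hA (isInt_XF_inv_t1C hq hqM),
    vC_Xz'_le hq hqM A hA ζ _, vC_Xz'_le hq hqM A hA ζ _, vC_Xz'_le hq hqM A hA ζ _⟩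
  mulo := by
    rw [Xo_mul_Xo' hq hqM, map_pow]; rfl
  mulz := by
    rw [Xz_mul_Xz' hq hqM, map_pow]; rfl
  voXo := by
    show vC M' q A ζ oo (Xo M' q) = vC M' q A ζ oo (algebraMap Qb _ (q : Qb)) ^ NX M'
    rw [vC_q, vC_oo_Xo hq hqM A ζ]
  vzXz := by
    show vC M' q A ζ zr (Xz M' q) = vC M' q A ζ zr (algebraMap Qb _ (q : Qb)) ^ NX M'
    rw [vC_q, vC_zr_Xz hq hqM A ζ]
  rzXo := rd_zr_Xo hq hqM A ζ
  rmXo := rd_md_Xo hq hqM A hA ζ hζ i₀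
  roXz := rd_oo_Xz A ζ
  rmXz := rd_md_Xz A ζ i₀

theorem lOk_P1F (i₀ : (ZMod q)ˣ) (ν : FN (M' * q * q)) :
    P1F.LOk (P1F.datBK (EC A (M' * q * q)) (vC M' q A ζ) (rhoC M' q A ζ) i₀ (FQ2C.tC M' q) (q : Qb)
      ν (q - 1)) (2 * ((q * q + 1) * mX M') + (q - 1) * ((1 + 1) * mX M'))
      ((CNT.gS (M' * q * q) : ℕ) : ℤ) (cfP1F (M' * q * q)) where
  ri := fun a => by
    have h := P1.Conc.ri_tC A ζ hM hq hqM hA hζ a
    rw [CNT.DD, ← two_mul] at h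
    exact h
  span := fun a =>
    (span_LatC A ζ hq hA a).trans (Submodule.span_mono fun z hz => ⟨hz.1, hz.2.1, hz.2.2 _, hz.2.2 _,
      hz.2.2 _⟩)
  sep := fun z hz => Subtype.ext (HahnSeries.ext (funext fun n => hz n))
  bd := fun a z hz j => by
    have h1 : ∀ i, vC M' q A ζ i z ≤ 1 :=
      le_one_of3C A ζ hM hq hqM hA hζ i₀ hz.1 hz.2.2.1 hz.2.2.2.1 hz.2.2.2.2
    have h2 := coeff_mem_of_isInt_C A ζ hM hq hqM hA hζ hz.2.1.1 h1 j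
    show vC M' q A ζ oo (algebraMap Qb _ ((z : LaurentSeries Qb).coeff j)) ≤ 1
    rw [vC_le_one_iff, (famC M' q ζ oo).const]
    exact ⟨_, (ORD.P2.CRed.mk (A := A) ⟨_, h2⟩).hasRed⟩
  arch := fun γ hγ => arch_C A ζ hq hA oo _
    (by
      show vC M' q A ζ oo (algebraMap Qb _ (q : Qb)) < 1
      rw [XT.vC_q (M' := M') A ζ oo]; exact XT.vq_lt_one A hA) γ hγ

theorem geoEC_P1F (i₀ : (ZMod q)ˣ) : GeoE M' q A ζ (EC A (M' * q * q)) i₀ := by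
  obtain ⟨νt, -, Dt⟩ := D3.exists_disc3C A ζ hM hq hqM hA hζ i₀
  obtain ⟨νi, -, Di⟩ := D3.exists_disc3C_inv A ζ hM hq hqM hA hζ i₀
  obtain ⟨s, hs⟩ := exists_sC A ζ hM hq hqM hA hζ
  have ONE := oneC A ζ hM hq hqM hA hζ i₀ s hs
  have hq0 : ((q : ℕ) : Qb) ≠ 0 := Nat.cast_ne_zero.2 hq.ne_zero
  have hnum : ((NX M' : ℕ) : ℤ) * (1 - ((CNT.gS (M' * q * q) : ℕ) : ℤ))
      = ((q : ℤ) + 1) * ((NX M' : ℕ) * (1 - ((RP.gC M' : ℕ) : ℤ)) + (HX M' q A).order) := by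
    have h := P1.Conc.numC hM hq hqM
    rw [TH1.order_XR]
    have hq1 : 1 ≤ q := hq.one_lt.le
    push_cast [Nat.cast_sub hq1] at h ⊢
    linear_combination h
  obtain ⟨prm, proz, prmi⟩ := P1F.pr_BK (lvl2 A ζ hq hqM hA hζ) (xDatC A hM hq hqM hA) hq.two_le hq0
    (arch_C A ζ hq hA) (chartC A ζ hM hq hqM hA hζ) (chartC_inv A ζ hM hq hqM hA hζ)
    (RP.isDedekindDomain_RC M' q hM hq hqM A hA) (RP.isDedekindDomain_RCinf M' q hM hq hqM A hA) i₀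
    (q : BC M' q A ζ) (coe_natCast_Bu _ _ _ q) (q : BCinf M' q A ζ) (coe_natCast_Bu _ _ _ q) s hs
    Dt (Nat.sub_add_cancel hq.one_lt.le) ONE
    (fun c => by
      obtain ⟨a, -, h1, h2⟩ := cstC (M' := M') A ζ hq hA c
      exact ⟨a, h1, h2 _, h2 _, h2 _⟩)
    (RP.isCurve_RC M' q hM hq hqM A hA)
    (xOk_P1F A ζ hM hq hqM hA hζ i₀ _ _) (lOk_P1F A ζ hM hq hqM hA hζ i₀ _) hnum
  exact
  { disc := ⟨νt, νi, q - 1, Dt, Di⟩
    inc := incC hM hq hqM A hA ζ hζ i₀ Dt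
    prm := prm
    proz := proz
    inf := ⟨s, hs, ONE, prmi⟩ }

omit hA hζ in
/-- **[TOP-CONC]** : Theorem C, function field form. -/
theorem thmCField_P1F : ThmCField M' q ((q ^ 2 - 1) ^ 2) :=
  thmCField_of_geo hM hq hqM fun A hA ζ hζ => ⟨1, geo_of_EC M' q A ζ (geoEC_P1F A ζ hM hq hqM hA hζ 1)⟩

end Fermat.Agent.CAR.Main
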